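import Fermat.Agent.S44.ResDeg.RedTo

/-!
# S44 / Const / Places / Transfer : from `(A₀, K, k₀)` to `(A, ℚ̄, k_A)`

`A` a valuation ring of `ℚ̄`; `(A₀, K, k₀, r)` a "model over a small field": `A₀ → K → ℚ̄` lands in `A`, and `e₀ : k₀ → k_A` is
compatible with the two residue maps (`Compat`).  Instance: `A₀ = A ∩ K₀` (`compat_A0`).

* `Compat.redTo`  : `RedK r x a ⟹ RedTo A (bc x) (bck a)`;
* `Compat.redUp`  : `RedK r (x * C γ) a`, `γ ≠ 0` `⟹ RedUp A (bc x) (bck a)`.
-/

set_option autoImplicit false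

open AlgebraicCurve ModularCurve

namespace Fermat.Agent.S44.Const.Places

open Fermat.Agent.ES (Qb FF kA resA)
open Fermat.Agent.SS (RedTo RedUp cst cstk)
open Fermat.Agent.SS.GM2 (RedK)
open Fermat.Agent.Crux (A0)

/-- `(A₀, K, k₀, r)` is compatible with `(A, ℚ̄, k_A)`. -/
structure Compat (A : ValuationSubring Qb) {A₀ K k₀ : Type*} [CommRing A₀] [Field K]
    [Algebra A₀ K] [Algebra K Qb] [Field k₀] (r : A₀ →+* k₀) (e₀ : k₀ →+* kA A) : Prop where
  mem : ∀ a : A₀, algebraMap K Qb (algebraMap A₀ K a) ∈ A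
  res : ∀ a : A₀, e₀ (r a) = resA A ⟨algebraMap K Qb (algebraMap A₀ K a), mem a⟩

/-- the standard instance `A₀ = A ∩ K₀`. -/
theorem compat_A0 (A : ValuationSubring Qb) (K₀ : Type*) [Field K₀] [Algebra K₀ Qb] :
    Compat A (K := K₀) (IsLocalRing.residue (A0 K₀ A))
      (IsLocalRing.ResidueField.map (Fermat.Agent.S44.ResDeg.incl K₀ A)) where
  mem a := a.2
  res _ := IsLocalRing.ResidueField.map_residue _ _

variable {A : ValuationSubring Qb} {A₀ K k₀ : Type*} [CommRing A₀] [Field K]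
  [Algebra A₀ K] [Algebra K Qb] [Field k₀] {r : A₀ →+* k₀} {e₀ : k₀ →+* kA A}

namespace Compat

/-- `A₀ → A`. -/
noncomputable def toA (C : Compat A (K := K) r e₀) : A₀ →+* A :=
  ((algebraMap K Qb).comp (algebraMap A₀ K)).codRestrict A.toSubring C.mem

theorem subtype_toA (C : Compat A (K := K) r e₀) (g : LaurentSeries A₀) :
    coeffMap A.subtype (coeffMap C.toA g)
      = coeffMap (algebraMap K Qb) (coeffMap (algebraMap A₀ K) g) := by
  rw [coeffMap_coeffMap, coeffMap_coeffMap]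
  exact coeffMap_congr (RingHom.ext fun _ => rfl) g

theorem res_toA (C : Compat A (K := K) r e₀) (g : LaurentSeries A₀) :
    coeffMap (resA A) (coeffMap C.toA g) = coeffMap e₀ (coeffMap r g) := by
  rw [coeffMap_coeffMap, coeffMap_coeffMap]
  exact coeffMap_congr (RingHom.ext fun a => (C.res a).symm) g

theorem redTo (C : Compat A (K := K) r e₀) {x : LaurentSeries K} {a : LaurentSeries k₀}
    (h : RedK r x a) : RedTo A (coeffMap (algebraMap K Qb) x) (coeffMap e₀ a) := by
  obtain ⟨g, h, hh, e1, e2⟩ := h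
  refine ⟨coeffMap C.toA g, coeffMap C.toA h, ?_, ?_, ?_⟩
  · rw [C.res_toA]
    intro h0
    exact hh ((coeffMap e₀).injective (by rw [h0, map_zero]))
  · rw [C.subtype_toA, C.subtype_toA, ← map_mul, e1]
  · rw [C.res_toA, C.res_toA, e2, map_mul]

theorem redUp (C : Compat A (K := K) r e₀) {x : LaurentSeries K} {a : LaurentSeries k₀} {γ : K}
    (hγ : γ ≠ 0) (h : RedK r (x * HahnSeries.C γ) a) :
    RedUp A (coeffMap (algebraMap K Qb) x) (coeffMap e₀ a) := by
  refine ⟨algebraMap K Qb γ, (map_ne_zero _).2 hγ, ?_⟩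
  have h1 := C.redTo h
  rw [map_mul, Fermat.Agent.S28.Build.coeffMap_C, Fermat.Agent.S28.C_eq_algebraMap, mul_comm] at h1
  exact h1

end Compat

end Fermat.Agent.S44.Const.Places
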