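import Fermat.Agent.S44.Const.Places.Transfer
import Fermat.Agent.S44.Eis.Scale

/-!
# S44 / Const / Places / Kappa : (c) KAPPA

`κ = ∑_{i<p} e_i (bc t₀)^i ≠ 0`, `e_i ∈ FF N`, `t₀ ∈ K((q))` with `RedK r t₀ tb` (only a QUOTIENT `g / h` of series over `A₀`), `A₀` noetherian:
`κ` is Gauss-scalable.  Variant of `Eis.redUp_sum` (which asks for `Y₁ * t` with coefficients in `R`).
-/

set_option autoImplicit false

open AlgebraicCurve ModularCurve

namespace Fermat.Agent.S44.Const.Places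

open Fermat.Agent.ES (Qb FF kA resA)
open Fermat.Agent.SS (RedTo RedUp cst cstk)
open Fermat.Agent.SS.GM2 (RedK)
open Fermat.Agent.S44.Eis (FGC exists_frac redUp_of_fgc)

/-- `Eis.redUp_sum` for `t = g / h`, `g h` with coefficients in `R`. -/
theorem redUp_sum_frac {R : Subring Qb} [IsNoetherianRing R] (A : ValuationSubring Qb)
    (hRA : ∀ x ∈ R, x ∈ A) {N : ℕ} [NeZero N] (p : ℕ) (e : ℕ → FF N) (t g h : LaurentSeries Qb)
    (hg : ∀ n, g.coeff n ∈ R) (hh : ∀ n, h.coeff n ∈ R) (hh0 : h ≠ 0) (ht : t * h = g)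
    (h0 : ∑ i ∈ Finset.range p, (e i : LaurentSeries Qb) * t ^ i ≠ 0) :
    ∃ κ : LaurentSeries (kA A), κ ≠ 0 ∧
      RedUp A (∑ i ∈ Finset.range p, (e i : LaurentSeries Qb) * t ^ i) κ := by
  classical
  choose a b ha hb hb0 hab using fun i : ℕ => exists_frac (e i)
  set B : LaurentSeries Qb := ∏ i ∈ Finset.range p, b i with hB
  have hB0 : B ≠ 0 := Finset.prod_ne_zero_iff.2 fun i _ => hb0 i
  set D : LaurentSeries Qb := B * h ^ p with hD
  have hD0 : D ≠ 0 := mul_ne_zero hB0 (pow_ne_zero _ hh0)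
  have hDfg : FGC R D :=
    (FGC.prod _ _ fun i _ => FGC.of_FGCoeff (hb i)).mul ((FGC.of_coeff_mem hh).pow p)
  have hkey : (∑ i ∈ Finset.range p, (e i : LaurentSeries Qb) * t ^ i) * D
      = ∑ i ∈ Finset.range p, (a i * ∏ j ∈ (Finset.range p).erase i, b j) *
          (g ^ i * h ^ (p - i)) := by
    rw [Finset.sum_mul]
    refine Finset.sum_congr rfl fun i hi => ?_
    have hip : i ≤ p := (Finset.mem_range.1 hi).le
    have h1 : B = b i * ∏ j ∈ (Finset.range p).erase i, b j :=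
      (Finset.mul_prod_erase _ _ hi).symm
    have h2 : h ^ p = h ^ i * h ^ (p - i) := by
      rw [← pow_add, Nat.add_sub_cancel' hip]
    rw [hD, h1, h2, ← hab i, ← ht, mul_pow]
    ring
  have hNfg : FGC R ((∑ i ∈ Finset.range p, (e i : LaurentSeries Qb) * t ^ i) * D) := by
    rw [hkey]
    refine FGC.sum _ _ fun i _ => ?_
    exact ((FGC.of_FGCoeff (ha i)).mul (FGC.prod _ _ fun j _ => FGC.of_FGCoeff (hb j))).mul
      (((FGC.of_coeff_mem hg).pow i).mul ((FGC.of_coeff_mem hh).pow (p - i)))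
  obtain ⟨κ₁, hκ₁, h₁⟩ := redUp_of_fgc A hRA _ hNfg (mul_ne_zero h0 hD0)
  obtain ⟨κ₂, hκ₂, h₂⟩ := redUp_of_fgc A hRA _ hDfg hD0
  refine ⟨κ₁ * κ₂⁻¹, mul_ne_zero hκ₁ (inv_ne_zero hκ₂), (h₁.mul (h₂.inv hκ₂)).congr ?_ rfl⟩
  rw [mul_assoc, mul_inv_cancel₀ hD0, mul_one]

variable {A : ValuationSubring Qb} {A₀ K k₀ : Type*} [CommRing A₀] [Field K]
  [Algebra A₀ K] [Algebra K Qb] [Field k₀] {r : A₀ →+* k₀} {e₀ : k₀ →+* kA A}

/-- **(c) KAPPA.** -/
theorem Compat.redUp_sum [IsNoetherianRing A₀] (C : Compat A (K := K) r e₀) {N : ℕ} [NeZero N]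
    (p : ℕ) (e : ℕ → FF N) {t₀ : LaurentSeries K} {tb : LaurentSeries k₀} (ht : RedK r t₀ tb)
    (h0 : ∑ i ∈ Finset.range p,
      (e i : LaurentSeries Qb) * (coeffMap (algebraMap K Qb) t₀) ^ i ≠ 0) :
    ∃ κ : LaurentSeries (kA A), κ ≠ 0 ∧
      RedUp A (∑ i ∈ Finset.range p,
        (e i : LaurentSeries Qb) * (coeffMap (algebraMap K Qb) t₀) ^ i) κ := by
  obtain ⟨g, h, hh, e1, -⟩ := ht
  let ι : A₀ →+* Qb := (algebraMap K Qb).comp (algebraMap A₀ K)
  have : IsNoetherianRing ι.range := isNoetherianRing_range ι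
  have hc : ∀ s : LaurentSeries A₀,
      coeffMap (algebraMap K Qb) (coeffMap (algebraMap A₀ K) s) = coeffMap ι s := fun s =>
    coeffMap_coeffMap _ _ s
  refine redUp_sum_frac (R := ι.range) A ?_ p e _ (coeffMap ι g) (coeffMap ι h) ?_ ?_ ?_ ?_ h0
  · rintro _ ⟨a, rfl⟩
    exact C.mem a
  · intro n
    rw [coeffMap_coeff]
    exact ⟨_, rfl⟩
  · intro n
    rw [coeffMap_coeff]
    exact ⟨_, rfl⟩
  · intro h1
    apply hh
    have h2 : coeffMap C.toA h = 0 := by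
      apply Fermat.Agent.S28.Build.coeffMap_injective (f := A.subtype) Subtype.val_injective
      rw [C.subtype_toA, hc, h1, map_zero]
    rw [← (coeffMap e₀).injective.eq_iff, ← C.res_toA, h2, map_zero, map_zero]
  · rw [← hc, ← hc, ← map_mul, e1]

end Fermat.Agent.S44.Const.Places
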