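import Fermat.Agent.S44.Const.Places.Val
import Fermat.Agent.S44.Const.Places.Kappa
import Fermat.Agent.S44.Const.Red
import Fermat.Agent.S44.Eis.Sep
import Fermat.Agent.S44.Defs

/-!
# S44 / Const / Places / Main : step (5) of CONST

From the `K₀`-level conclusion of ABS (`RedK r (f' * C γ) φ'`, (NCV), (CUV) over `L = F_{k₀}(M)`) and `f' = f * kk^p`, `kk` Gauss-scalable,
to `CuspP M A p f ∧ Eis.NC M A p (f^T * XD^c)`.

* `Cuspk.mul / inv / ppow`, `cusp_back` : the cuspidal analogue of `Eis.nc_back`;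
* `nc_cuspP`  : the final statement of step (5) (`T c : ℤ`, `kk` any Gauss-scalable series);
* `nc_cuspP_sum` : the same with `T : ℕ`, `kk = ∑_{i<p} e_i (bc t₀)^i` (output of `Cover.cover_main`), `RedK r t₀ tb`, `A₀` noetherian,
  and the conclusion in the shape of `S44.Const` (`XD ^ (-c)`).
-/

set_option autoImplicit false

open AlgebraicCurve ModularCurve

namespace Fermat.Agent.S44.Const.Places

open Fermat.Agent.ES (Qb FF kA resA)
open Fermat.Agent.S37.Mod (resF)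
open Fermat.Agent.SS (RedTo RedUp cst cstk)
open Fermat.Agent.SS.GM2 (RedK Xh Jh)
open Fermat.Agent.S44.Eis (jt NCk ALLk HasRed NC)
open Fermat.Agent.S44.XD (XD)
open Fermat.Agent.Crux.GM (castS)

noncomputable section

section Cusp

variable {M : ℕ} [NeZero M] {A : ValuationSubring Qb} {p : ℕ} {r r' : LaurentSeries (kA A)}

theorem Cuspk.mul (h : Cuspk M A p r) (h' : Cuspk M A p r') : Cuspk M A p (r * r') := by
  obtain ⟨hr, h0, h⟩ := h
  obtain ⟨hr', h0', h'⟩ := h'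
  refine ⟨mul_mem hr hr', mul_ne_zero h0 h0', fun P hP => ?_⟩
  have e : (⟨r * r', mul_mem hr hr'⟩ : resF M A) = ⟨r, hr⟩ * ⟨r', hr'⟩ := rfl
  rw [e, P.ord_mul (fun h => h0 (congrArg Subtype.val h)) (fun h => h0' (congrArg Subtype.val h))]
  exact dvd_add (h P hP) (h' P hP)

theorem Cuspk.inv (h : Cuspk M A p r) : Cuspk M A p r⁻¹ := by
  obtain ⟨hr, h0, h⟩ := h
  refine ⟨inv_mem hr, inv_ne_zero h0, fun P hP => ?_⟩
  have e : (⟨r⁻¹, inv_mem hr⟩ : resF M A) = (⟨r, hr⟩ : resF M A)⁻¹ := rfl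
  rw [e, P.ord_inv]
  exact (dvd_neg).2 (h P hP)

theorem Cuspk.ppow (hr : r ∈ resF M A) (h0 : r ≠ 0) : Cuspk M A p (r ^ p) := by
  refine ⟨pow_mem hr p, pow_ne_zero p h0, fun P _ => ?_⟩
  have e : (⟨r ^ p, pow_mem hr p⟩ : resF M A) = (⟨r, hr⟩ : resF M A) ^ (p : ℤ) := by
    rw [zpow_natCast]; rfl
  rw [e, P.ord_zpow]
  exact dvd_mul_right _ _

/-- **(BACK), cuspidal places.** -/
theorem cusp_back (hp : p.Prime) (hA : A.LiesOverPrime p)
    {f : LaurentSeries Qb} {φ κ ψ : LaurentSeries (kA A)}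
    (hφ : RedUp A f φ) (hφ0 : φ ≠ 0) (hφm : φ ∈ resF M A) (hκ : κ ≠ 0)
    (hψ : ψ = φ * κ ^ p) (h : Cuspk M A p ψ) : CuspP M A p f := by
  have hpm : κ ^ p ∈ resF M A := by
    have e3 : κ ^ p = ψ * φ⁻¹ := by
      rw [hψ, mul_comm φ, mul_inv_cancel_right₀ hφ0]
    rw [e3]
    exact mul_mem h.1 (inv_mem hφm)
  have hκm : κ ∈ resF M A := Fermat.Agent.S44.Eis.mem_resF_of_pow hp hA hpm
  have h5 := Cuspk.mul h (Cuspk.inv (Cuspk.ppow (p := p) hκm hκ))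
  rw [hψ, mul_inv_cancel_right₀ (pow_ne_zero p hκ)] at h5
  exact ⟨φ, hφ, h5⟩

end Cusp

variable {M : ℕ} [NeZero M] {A : ValuationSubring Qb} {p : ℕ} [NeZero p]
  {A₀ K k₀ : Type*} [CommRing A₀] [Field K] [Algebra A₀ K] [Algebra K Qb] [Field k₀]
  {r : A₀ →+* k₀} {e₀ : k₀ →+* kA A}

/-- the reduction of `f` itself. -/
theorem hasRed_f (hp : p.Prime) (hpM : ¬ p ∣ M) (hA : A.LiesOverPrime p)
    (C : Compat A (K := K) r e₀) (f : FF (M * p))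
    {kk : LaurentSeries Qb} {κ : LaurentSeries (kA A)} (hkk : RedUp A kk κ) (hκ : κ ≠ 0)
    {f' : LaurentSeries K}
    (hf' : coeffMap (algebraMap K Qb) f' = (f : LaurentSeries Qb) * kk ^ p)
    {γ : K} (hγ : γ ≠ 0) (φ' : modularFunctionFieldFullC k₀ M) (hφ0 : φ' ≠ 0)
    (hred : RedK r (f' * HahnSeries.C γ) (φ' : LaurentSeries k₀)) :
    RedUp A ((f : LaurentSeries Qb) * kk ^ p) (coeffMap e₀ (φ' : LaurentSeries k₀)) ∧
    coeffMap e₀ (φ' : LaurentSeries k₀) ≠ 0 ∧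
    RedUp A (f : LaurentSeries Qb) (coeffMap e₀ (φ' : LaurentSeries k₀) * (κ ^ p)⁻¹) ∧
    coeffMap e₀ (φ' : LaurentSeries k₀) * (κ ^ p)⁻¹ ≠ 0 ∧
    coeffMap e₀ (φ' : LaurentSeries k₀) * (κ ^ p)⁻¹ ∈ resF M A := by
  have h1 : RedUp A ((f : LaurentSeries Qb) * kk ^ p) (coeffMap e₀ (φ' : LaurentSeries k₀)) := by
    rw [← hf']
    exact C.redUp hγ hred
  have hφb0 : coeffMap e₀ (φ' : LaurentSeries k₀) ≠ 0 := fun h0 =>
    hφ0 (Subtype.ext ((coeffMap e₀).injective (h0.trans (map_zero _).symm)))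
  have hkk0 : kk ≠ 0 := by
    rintro rfl
    obtain ⟨c, -, h⟩ := hkk
    rw [mul_zero] at h
    refine hκ (h.unique ⟨0, 1, ?_, ?_, ?_⟩)
    · rw [map_one]; exact one_ne_zero
    · rw [map_zero, zero_mul]
    · rw [map_zero, zero_mul]
  have h2 : RedUp A (f : LaurentSeries Qb)
      (coeffMap e₀ (φ' : LaurentSeries k₀) * (κ ^ p)⁻¹) :=
    (h1.mul ((hkk.pow p).inv (pow_ne_zero p hκ))).congr
      (mul_inv_cancel_right₀ (pow_ne_zero p hkk0) _) rfl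
  exact ⟨h1, hφb0, h2, mul_ne_zero hφb0 (inv_ne_zero (pow_ne_zero p hκ)),
    Fermat.Agent.S44.ResDeg.mem_resF_of_redUp_mul M p hp hpM A hA f h2⟩

/-- **Step (5) of CONST, cuspidal places.** -/
theorem cuspP_of_cuv (hp : p.Prime) (hpM : ¬ p ∣ M) (hA : A.LiesOverPrime p)
    (C : Compat A (K := K) r e₀) (f : FF (M * p))
    {kk : LaurentSeries Qb} {κ : LaurentSeries (kA A)} (hkk : RedUp A kk κ) (hκ : κ ≠ 0)
    {f' : LaurentSeries K}
    (hf' : coeffMap (algebraMap K Qb) f' = (f : LaurentSeries Qb) * kk ^ p)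
    {γ : K} (hγ : γ ≠ 0) (φ' xb : modularFunctionFieldFullC k₀ M) (hφ0 : φ' ≠ 0)
    (hxb : (xb : LaurentSeries k₀) = castS k₀ (Xh M p))
    (hred : RedK r (f' * HahnSeries.C γ) (φ' : LaurentSeries k₀))
    (cuv : ∀ V : ValuationSubring (modularFunctionFieldFullC k₀ M), xb ∉ V →
      ∃ y : modularFunctionFieldFullC k₀ M, y ≠ 0 ∧ IsUnitIn V (y ^ p * φ')) :
    CuspP M A p (f : LaurentSeries Qb) := by
  obtain ⟨-, -, h2, hφ20, hφ2m⟩ := hasRed_f hp hpM hA C f hkk hκ hf' hγ φ' hφ0 hred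
  refine cusp_back hp hA h2 hφ20 hφ2m hκ
    (inv_mul_cancel_right₀ (pow_ne_zero p hκ) _).symm ?_
  refine cuspk_of_cuv e₀ p hp hA xb hxb φ'.2 (fun h => hφ0 (Subtype.ext h)) fun W hW => ?_
  obtain ⟨y, hy, hu⟩ := cuv W hW
  exact ⟨y, y ^ p * φ', mul_ne_zero (pow_ne_zero p hy) hφ0, hu.1, hu.2, rfl⟩

/-- **Step (5) of CONST, non-cuspidal places.** -/
theorem nc_of_ncv (hp : p.Prime) (hpM : ¬ p ∣ M) (hA : A.LiesOverPrime p)
    (C : Compat A (K := K) r e₀) (f : FF (M * p))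
    {kk : LaurentSeries Qb} {κ : LaurentSeries (kA A)} (hkk : RedUp A kk κ) (hκ : κ ≠ 0)
    {f' : LaurentSeries K}
    (hf' : coeffMap (algebraMap K Qb) f' = (f : LaurentSeries Qb) * kk ^ p)
    {γ : K} (hγ : γ ≠ 0) (φ' xb Xb : modularFunctionFieldFullC k₀ M) (hφ0 : φ' ≠ 0)
    (hxb : (xb : LaurentSeries k₀) = castS k₀ (Xh M p)) (hXb : (Xb : LaurentSeries k₀) = XD k₀ p)
    (hred : RedK r (f' * HahnSeries.C γ) (φ' : LaurentSeries k₀)) (T c : ℤ)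
    (ncv : ∀ V : ValuationSubring (modularFunctionFieldFullC k₀ M), xb ∈ V →
      ∃ y : modularFunctionFieldFullC k₀ M, y ≠ 0 ∧ IsUnitIn V (y ^ p * (φ' ^ T * Xb ^ c))) :
    NC M A p ((f : LaurentSeries Qb) ^ T * XD Qb p ^ c) := by
  have hXb0 : Xb ≠ 0 := fun h => Fermat.Agent.S44.XD.XD_ne_zero (R := k₀) p (by rw [← hXb, h]; rfl)
  obtain ⟨h1, hφb0, h2, hφ20, hφ2m⟩ := hasRed_f hp hpM hA C f hkk hκ hf' hγ φ' hφ0 hred
  have h3 : NCk M A p (coeffMap e₀ ((φ' ^ T * Xb ^ c : modularFunctionFieldFullC k₀ M) :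
      LaurentSeries k₀)) := by
    refine nck_of_ncv e₀ p hp hA xb hxb (φ' ^ T * Xb ^ c).2
      (fun h => mul_ne_zero (zpow_ne_zero T hφ0) (zpow_ne_zero c hXb0) (Subtype.ext h))
      fun W hW => ?_
    obtain ⟨y, hy, hu⟩ := ncv W hW
    exact ⟨y, y ^ p * (φ' ^ T * Xb ^ c), mul_ne_zero (pow_ne_zero p hy)
      (mul_ne_zero (zpow_ne_zero T hφ0) (zpow_ne_zero c hXb0)), hu.1, hu.2, rfl⟩
  have e1 : coeffMap e₀ ((φ' ^ T * Xb ^ c : modularFunctionFieldFullC k₀ M) : LaurentSeries k₀)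
      = coeffMap e₀ (φ' : LaurentSeries k₀) ^ T * XD (kA A) p ^ c := by
    have e2 : ((φ' ^ T * Xb ^ c : modularFunctionFieldFullC k₀ M) : LaurentSeries k₀)
        = (φ' : LaurentSeries k₀) ^ T * (Xb : LaurentSeries k₀) ^ c := by
      have := map_mul (modularFunctionFieldFullC k₀ M).val (φ' ^ T) (Xb ^ c)
      rw [map_zpow₀, map_zpow₀] at this
      exact this
    rw [e2, map_mul, map_zpow₀, map_zpow₀, hXb, Fermat.Agent.S44.XD.coeffMap_XD]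
  rw [e1] at h3
  have h4 : NC M A p (((f : LaurentSeries Qb) * kk ^ p) ^ T * XD Qb p ^ (- -c)) := by
    rw [neg_neg]
    exact ⟨_, (Fermat.Agent.S44.Eis.RedUp.zpow h1 hφb0 T).mul
      (Fermat.Agent.S44.Eis.RedUp.zpow (Fermat.Agent.S44.XD.redUp_XD p A)
        (Fermat.Agent.S44.XD.XD_ne_zero p) c), h3⟩
  have h5 := Fermat.Agent.S44.Eis.nc_back hp hpM hA ⟨_, h2, hφ20, hφ2m⟩ hkk hκ h4
  rwa [neg_neg] at h5

/-- **Step (5) of CONST.** -/
theorem nc_cuspP (hp : p.Prime) (hpM : ¬ p ∣ M) (hA : A.LiesOverPrime p)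
    (C : Compat A (K := K) r e₀) (f : FF (M * p))
    {kk : LaurentSeries Qb} {κ : LaurentSeries (kA A)} (hkk : RedUp A kk κ) (hκ : κ ≠ 0)
    {f' : LaurentSeries K}
    (hf' : coeffMap (algebraMap K Qb) f' = (f : LaurentSeries Qb) * kk ^ p)
    {γ : K} (hγ : γ ≠ 0) (φ' xb Xb : modularFunctionFieldFullC k₀ M) (hφ0 : φ' ≠ 0)
    (hxb : (xb : LaurentSeries k₀) = castS k₀ (Xh M p)) (hXb : (Xb : LaurentSeries k₀) = XD k₀ p)
    (hred : RedK r (f' * HahnSeries.C γ) (φ' : LaurentSeries k₀)) (T c : ℤ)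
    (ncv : ∀ V : ValuationSubring (modularFunctionFieldFullC k₀ M), xb ∈ V →
      ∃ y : modularFunctionFieldFullC k₀ M, y ≠ 0 ∧ IsUnitIn V (y ^ p * (φ' ^ T * Xb ^ c)))
    (cuv : ∀ V : ValuationSubring (modularFunctionFieldFullC k₀ M), xb ∉ V →
      ∃ y : modularFunctionFieldFullC k₀ M, y ≠ 0 ∧ IsUnitIn V (y ^ p * φ')) :
    CuspP M A p (f : LaurentSeries Qb) ∧ NC M A p ((f : LaurentSeries Qb) ^ T * XD Qb p ^ c) :=
  ⟨cuspP_of_cuv hp hpM hA C f hkk hκ hf' hγ φ' xb hφ0 hxb hred cuv,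
    nc_of_ncv hp hpM hA C f hkk hκ hf' hγ φ' xb Xb hφ0 hxb hXb hred T c ncv⟩

/-- **Step (5) of CONST, non-cuspidal places**, in the shape produced by `Cover.cover_main` / `Const.ncv` and consumed by `S44.Const`
(no chart `1/X` needed: take `CuspP` from `Cusp.cuspP`). -/
theorem nc_sum [IsNoetherianRing A₀] (hp : p.Prime) (hpM : ¬ p ∣ M) (hA : A.LiesOverPrime p)
    (C : Compat A (K := K) r e₀) (f : FF (M * p)) (e : ℕ → FF (M * p))
    {t₀ : LaurentSeries K} {tb : LaurentSeries k₀} (ht : RedK r t₀ tb)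
    (h0 : ∑ i ∈ Finset.range p,
      (e i : LaurentSeries Qb) * (coeffMap (algebraMap K Qb) t₀) ^ i ≠ 0)
    {f' : LaurentSeries K}
    (hf' : coeffMap (algebraMap K Qb) f' = (f : LaurentSeries Qb) *
      (∑ i ∈ Finset.range p, (e i : LaurentSeries Qb) * (coeffMap (algebraMap K Qb) t₀) ^ i) ^ p)
    {γ : K} (hγ : γ ≠ 0) (φ' xb Xb : modularFunctionFieldFullC k₀ M) (hφ0 : φ' ≠ 0)
    (hxb : (xb : LaurentSeries k₀) = castS k₀ (Xh M p)) (hXb : (Xb : LaurentSeries k₀) = XD k₀ p)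
    (hred : RedK r (f' * HahnSeries.C γ) (φ' : LaurentSeries k₀)) (T : ℕ) (c : ℤ)
    (ncv : ∀ V : ValuationSubring (modularFunctionFieldFullC k₀ M), xb ∈ V →
      ∃ y : modularFunctionFieldFullC k₀ M, y ≠ 0 ∧ IsUnitIn V (y ^ p * (φ' ^ T * Xb ^ (-c)))) :
    NC M A p ((f : LaurentSeries Qb) ^ (T : ℤ) * XD Qb p ^ (-c)) := by
  obtain ⟨κ, hκ, hkk⟩ := C.redUp_sum p e ht h0
  refine nc_of_ncv hp hpM hA C f hkk hκ hf' hγ φ' xb Xb hφ0 hxb hXb hred (T : ℤ) (-c) ?_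
  intro V hV
  rw [zpow_natCast]
  exact ncv V hV

/-- **Step (5) of CONST**, in the shape produced by `Cover.cover_main` / `Const.ncv` / `Const.cuv` and consumed by `S44.Const`. -/
theorem nc_cuspP_sum [IsNoetherianRing A₀] (hp : p.Prime) (hpM : ¬ p ∣ M) (hA : A.LiesOverPrime p)
    (C : Compat A (K := K) r e₀) (f : FF (M * p)) (e : ℕ → FF (M * p))
    {t₀ : LaurentSeries K} {tb : LaurentSeries k₀} (ht : RedK r t₀ tb)
    (h0 : ∑ i ∈ Finset.range p,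
      (e i : LaurentSeries Qb) * (coeffMap (algebraMap K Qb) t₀) ^ i ≠ 0)
    {f' : LaurentSeries K}
    (hf' : coeffMap (algebraMap K Qb) f' = (f : LaurentSeries Qb) *
      (∑ i ∈ Finset.range p, (e i : LaurentSeries Qb) * (coeffMap (algebraMap K Qb) t₀) ^ i) ^ p)
    {γ : K} (hγ : γ ≠ 0) (φ' xb Xb : modularFunctionFieldFullC k₀ M) (hφ0 : φ' ≠ 0)
    (hxb : (xb : LaurentSeries k₀) = castS k₀ (Xh M p)) (hXb : (Xb : LaurentSeries k₀) = XD k₀ p)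
    (hred : RedK r (f' * HahnSeries.C γ) (φ' : LaurentSeries k₀)) (T : ℕ) (c : ℤ)
    (ncv : ∀ V : ValuationSubring (modularFunctionFieldFullC k₀ M), xb ∈ V →
      ∃ y : modularFunctionFieldFullC k₀ M, y ≠ 0 ∧ IsUnitIn V (y ^ p * (φ' ^ T * Xb ^ (-c))))
    (cuv : ∀ V : ValuationSubring (modularFunctionFieldFullC k₀ M), xb ∉ V →
      ∃ y : modularFunctionFieldFullC k₀ M, y ≠ 0 ∧ IsUnitIn V (y ^ p * φ')) :
    CuspP M A p (f : LaurentSeries Qb) ∧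
      NC M A p ((f : LaurentSeries Qb) ^ (T : ℤ) * XD Qb p ^ (-c)) := by
  obtain ⟨κ, hκ, hkk⟩ := C.redUp_sum p e ht h0
  exact ⟨cuspP_of_cuv hp hpM hA C f hkk hκ hf' hγ φ' xb hφ0 hxb hred cuv,
    nc_sum hp hpM hA C f e ht h0 hf' hγ φ' xb Xb hφ0 hxb hXb hred T c ncv⟩

end

end Fermat.Agent.S44.Const.Places
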