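import Fermat.Agent.S44.Const.Places.Transfer

/-!
# S44 / Const / Places / Val : (a) from valuation rings of `F_{k₀}(M)` to places of `resF M A`

`L₀ = F_{k₀}(M) = modularFunctionFieldFullC k₀ M`, `e₀ : k₀ → k_A`, `bcF : L₀ → resF M A` the base change.
A place `Q` of `resF M A` is pulled back to the valuation ring `V = Q ∘ bcF` of `L₀`.

* `ord_jt_nonneg_iff` : `0 ≤ Q.ord j̄ ↔ j̄(q^M) ∈ Q`  (mutual integrality of `j(q)`, `j(q^M)`);
* `xb_mem_comap_iff`  : `xb ∈ V ↔ 0 ≤ Q.ord j̄` for `xb = j̄(q^M) j̄(q^{Mp}) = j̄(q^M)^(p+1)`;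
* `nck_of_ncv`, `cuspk_of_cuv`.
-/

set_option autoImplicit false

open AlgebraicCurve ModularCurve

namespace Fermat.Agent.S44.Const.Places

open Fermat.Agent.ES (Qb FF kA resA)
open Fermat.Agent.S37.Mod (resF)
open Fermat.Agent.S44.Eis (jt NCk ALLk)
open Fermat.Agent.S28 (V J evAt)
open Fermat.Agent.Crux.GM (castS)
open Fermat.Agent.SS.GM2 (Xh Jh)

noncomputable section

variable (M : ℕ) [NeZero M] (A : ValuationSubring Qb) {k₀ : Type*} [Field k₀] (e₀ : k₀ →+* kA A)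

/-- base change `F_{k₀}(M) → resF M A`. -/
def bcF : modularFunctionFieldFullC k₀ M →+* resF M A :=
  ((coeffMap e₀).comp (algebraMap (modularFunctionFieldFullC k₀ M) (LaurentSeries k₀))).codRestrict
    (resF M A) (fun f => Fermat.Agent.S44.ResDeg.full_le_resF M A
      (Fermat.Agent.S28.coeffMap_mem_full e₀ M f.2))

theorem coe_bcF (f : modularFunctionFieldFullC k₀ M) :
    ((bcF M A e₀ f : resF M A) : LaurentSeries (kA A)) = coeffMap e₀ (f : LaurentSeries k₀) := rfl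

/-- `j̄(q^M) ∈ resF M A`. -/
def jMt : resF M A :=
  ⟨V (kA A) M (J (kA A)), Fermat.Agent.S44.ResDeg.full_le_resF M A
    (jqModCd_mem_full (kA A) M dvd_rfl)⟩

variable {M A}

/-- integrality in `k((q))` over `k[t]`, `t y ∈ resF`, gives membership in every valuation ring of `resF`
containing the constants and `t`. -/
theorem mem_of_isIntegralElem_evAt (O : ValuationSubring (resF M A))
    (hO : ∀ c : kA A, algebraMap (kA A) (resF M A) c ∈ O) {t y : resF M A} (ht : t ∈ O)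
    (h : (evAt (t : LaurentSeries (kA A))).IsIntegralElem (y : LaurentSeries (kA A))) : y ∈ O := by
  obtain ⟨P, hP, h0⟩ := h
  let g : Polynomial (kA A) →+* resF M A := Polynomial.eval₂RingHom (algebraMap (kA A) (resF M A)) t
  have hg : ∀ c, g c ∈ O := by
    intro c
    show Polynomial.eval₂ (algebraMap (kA A) (resF M A)) t c ∈ O
    rw [Polynomial.eval₂_eq_sum_range]
    exact sum_mem fun i _ => mul_mem (hO _) (pow_mem ht i)
  have hcomp : ((resF M A).val : resF M A →+* LaurentSeries (kA A)).comp g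
      = evAt (t : LaurentSeries (kA A)) := by
    apply Polynomial.ringHom_ext
    · intro a
      show ((g (Polynomial.C a) : resF M A) : LaurentSeries (kA A)) = evAt _ (Polynomial.C a)
      simp only [g, evAt, Polynomial.coe_eval₂RingHom, Polynomial.eval₂_C]
      exact (Fermat.Agent.S28.C_eq_algebraMap a).symm
    · show ((g Polynomial.X : resF M A) : LaurentSeries (kA A)) = evAt _ Polynomial.X
      simp only [g, evAt, Polynomial.coe_eval₂RingHom, Polynomial.eval₂_X]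
  refine Fermat.Agent.S37.Red.mem_valuationSubring_of_isIntegralElem O g hg ⟨P, hP, ?_⟩
  apply Subtype.ext
  have h1 := Polynomial.hom_eval₂ P g ((resF M A).val : resF M A →+* LaurentSeries (kA A)) y
  rw [hcomp] at h1
  exact h1.trans h0

theorem ord_jt_nonneg_iff (Q : Place (kA A) (resF M A)) :
    0 ≤ Q.ord (jt M A) ↔ jMt M A ∈ Q.toValuationSubring := by
  rw [Fermat.Agent.S24.FF.ord_nonneg_iff]
  have hO : ∀ c : kA A, algebraMap (kA A) (resF M A) c ∈ Q.toValuationSubring := fun c =>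
    (Fermat.Agent.S24.FF.ord_nonneg_iff Q).1 (le_of_eq (Fermat.Agent.S24.FF.ord_algebraMap Q c).symm)
  have h := Fermat.Agent.S28.isIntegralElem_V_of_dvd (kA A) 1 M (one_dvd M)
  rw [show V (kA A) 1 (J (kA A)) = J (kA A) from qExpand_one_apply _] at h
  exact ⟨fun hj => mem_of_isIntegralElem_evAt _ hO (t := jt M A) (y := jMt M A) hj h.1,
    fun hj => mem_of_isIntegralElem_evAt _ hO (t := jMt M A) (y := jt M A) hj h.2⟩

variable (p : ℕ) [NeZero p]

theorem xb_mem_comap_iff (hp : p.Prime) (hA : A.LiesOverPrime p)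
    (xb : modularFunctionFieldFullC k₀ M) (hxb : (xb : LaurentSeries k₀) = castS k₀ (Xh M p))
    (Q : Place (kA A) (resF M A)) :
    xb ∈ Q.toValuationSubring.comap (bcF M A e₀) ↔ 0 ≤ Q.ord (jt M A) := by
  have : Fact p.Prime := ⟨hp⟩
  have : CharP (kA A) p := Fermat.Agent.S37.Mod.charP_kA hp hA
  have h1 : bcF M A e₀ xb = jMt M A ^ (p + 1) := by
    apply Subtype.ext
    rw [coe_bcF, hxb, Fermat.Agent.Crux.GM.coeffMap_castS, Fermat.Agent.SS.GM2.castS_Xh]
    show castS (kA A) (V ℤ M (J ℤ)) ^ (p + 1) = (V (kA A) M (J (kA A))) ^ (p + 1)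
    rw [Fermat.Agent.Crux.GM.CoordJ.castS_VJ]
  rw [ord_jt_nonneg_iff, ValuationSubring.mem_comap, h1,
    ← Fermat.Agent.S24.FF.ord_nonneg_iff, ← Fermat.Agent.S24.FF.ord_nonneg_iff,
    Fermat.Agent.S24.FF.ord_pow]
  constructor
  · intro h
    by_contra hcon
    push Not at hcon
    have : ((p + 1 : ℕ) : ℤ) * Q.ord (jMt M A) < 0 :=
      mul_neg_of_pos_of_neg (by positivity) hcon
    omega
  · intro h
    positivity

/-- the divisibility extracted from one valuation ring. -/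
theorem dvd_ord_of_unit (Q : Place (kA A) (resF M A)) {ψ : LaurentSeries k₀}
    (hψ : coeffMap e₀ ψ ∈ resF M A)
    (h : ∃ y u : modularFunctionFieldFullC k₀ M, u ≠ 0 ∧
      u ∈ Q.toValuationSubring.comap (bcF M A e₀) ∧ u⁻¹ ∈ Q.toValuationSubring.comap (bcF M A e₀) ∧
      (u : LaurentSeries k₀) = (y : LaurentSeries k₀) ^ p * ψ) :
    (p : ℤ) ∣ Q.ord (⟨coeffMap e₀ ψ, hψ⟩ : resF M A) := by
  obtain ⟨y, u, hu0, hu, hu', huy⟩ := h
  rw [ValuationSubring.mem_comap, ← Fermat.Agent.S24.FF.ord_nonneg_iff] at hu hu'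
  have hU0 : bcF M A e₀ u ≠ 0 := (map_ne_zero _).2 hu0
  rw [map_inv₀, Place.ord_inv] at hu'
  have hU : Q.ord (bcF M A e₀ u) = 0 := by omega
  have h1 : bcF M A e₀ u = bcF M A e₀ y ^ p * (⟨coeffMap e₀ ψ, hψ⟩ : resF M A) := by
    apply Subtype.ext
    rw [coe_bcF, huy, map_mul, map_pow]
    rfl
  have hy0 : bcF M A e₀ y ^ p ≠ 0 := fun h => hU0 (by rw [h1, h, zero_mul])
  have hψ0 : (⟨coeffMap e₀ ψ, hψ⟩ : resF M A) ≠ 0 := fun h => hU0 (by rw [h1, h, mul_zero])
  rw [h1, Place.ord_mul _ hy0 hψ0, Fermat.Agent.S24.FF.ord_pow] at hU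
  exact ⟨-Q.ord (bcF M A e₀ y), by linarith⟩

/-- **(a), non-cuspidal places.** -/
theorem nck_of_ncv (hp : p.Prime) (hA : A.LiesOverPrime p)
    (xb : modularFunctionFieldFullC k₀ M) (hxb : (xb : LaurentSeries k₀) = castS k₀ (Xh M p))
    {ψ : LaurentSeries k₀} (hψ : ψ ∈ modularFunctionFieldFullC k₀ M) (hψ0 : ψ ≠ 0)
    (h : ∀ W : ValuationSubring (modularFunctionFieldFullC k₀ M), xb ∈ W →
      ∃ y u : modularFunctionFieldFullC k₀ M, u ≠ 0 ∧ u ∈ W ∧ u⁻¹ ∈ W ∧
        (u : LaurentSeries k₀) = (y : LaurentSeries k₀) ^ p * ψ) :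
    NCk M A p (coeffMap e₀ ψ) := by
  have hm : coeffMap e₀ ψ ∈ resF M A :=
    Fermat.Agent.S44.ResDeg.full_le_resF M A (Fermat.Agent.S28.coeffMap_mem_full e₀ M hψ)
  refine ⟨hm, fun h0 => hψ0 ((coeffMap e₀).injective (by rw [h0, map_zero])), fun Q hQ => ?_⟩
  exact dvd_ord_of_unit e₀ p Q hm (h _ ((xb_mem_comap_iff e₀ p hp hA xb hxb Q).2 hQ))

/-- **(a), cuspidal places.** -/
theorem cuspk_of_cuv (hp : p.Prime) (hA : A.LiesOverPrime p)
    (xb : modularFunctionFieldFullC k₀ M) (hxb : (xb : LaurentSeries k₀) = castS k₀ (Xh M p))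
    {ψ : LaurentSeries k₀} (hψ : ψ ∈ modularFunctionFieldFullC k₀ M) (hψ0 : ψ ≠ 0)
    (h : ∀ W : ValuationSubring (modularFunctionFieldFullC k₀ M), xb ∉ W →
      ∃ y u : modularFunctionFieldFullC k₀ M, u ≠ 0 ∧ u ∈ W ∧ u⁻¹ ∈ W ∧
        (u : LaurentSeries k₀) = (y : LaurentSeries k₀) ^ p * ψ) :
    Cuspk M A p (coeffMap e₀ ψ) := by
  have hm : coeffMap e₀ ψ ∈ resF M A :=
    Fermat.Agent.S44.ResDeg.full_le_resF M A (Fermat.Agent.S28.coeffMap_mem_full e₀ M hψ)
  refine ⟨hm, fun h0 => hψ0 ((coeffMap e₀).injective (by rw [h0, map_zero])), fun Q hQ => ?_⟩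
  exact dvd_ord_of_unit e₀ p Q hm
    (h _ (fun hx => absurd ((xb_mem_comap_iff e₀ p hp hA xb hxb Q).1 hx) (not_le.2 hQ)))

end

end Fermat.Agent.S44.Const.Places
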